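/-
S56 / FLAT / LF (architect helper202): definitions for LF4 / LF5, in the abstract language of
`Flat/Ram/Defs.lean` (helper18): `F / F0` with a valuation `v` on `F`, `TotRam F0 v p`.

`ϖ ^ e = p`, `E = F0⟮ϖ⟯`.  An element `a ∈ E` is *bad* if
* `Bad1`: `v (a - 1) = v ϖ ^ j`, `0 < j < e`, `p ∤ j`, or
* `Bad2`: `v a = v ϖ ^ j`, `j : ℤ`, `p ∤ j`.
LF5: every `a ∈ E`, `a ≠ 0`, is modulo `p`-th powers of `E` either `≡ 1 mod p` or bad.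
LF4: if `a` is bad and `α ^ p = a` then `F0⟮ϖ, α⟯` has degree `p e` and a large ramification break.
-/
import Fermat.Agent.S56.Flat.Ram.Defs

set_option autoImplicit false

namespace Fermat.Agent.S56.Flat.Ram

variable {F : Type*} [Field F] {Γ : Type*} [LinearOrderedCommGroupWithZero Γ]

/-- `v (a - 1) = v ϖ ^ j`, `0 < j < e`, `p ∤ j`. -/
def Bad1 (v : Valuation F Γ) (ϖ a : F) (e p : ℕ) : Prop :=
  ∃ j : ℕ, 0 < j ∧ j < e ∧ ¬ p ∣ j ∧ v (a - 1) = v ϖ ^ j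

/-- `v a = v ϖ ^ j`, `p ∤ j`. -/
def Bad2 (v : Valuation F Γ) (ϖ a : F) (p : ℕ) : Prop :=
  ∃ j : ℤ, ¬ (p : ℤ) ∣ j ∧ v a = v ϖ ^ j

end Fermat.Agent.S56.Flat.Ram
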