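/-
S56 / FLAT / LF (architect helper202), leaf LF-4a (owner helper244; Mathlib + Ram/Defs only).
`τ - 1` on the integers of `E` is controlled by `τ π₁ - π₁`, `π₁` a uniformiser of `E`.
-/
import Fermat.Agent.S56.Flat.LF.Defs

set_option autoImplicit false

namespace Fermat.Agent.S56.Flat.Ram

variable {F0 F : Type*} [Field F0] [Field F] [Algebra F0 F]
variable {Γ : Type*} [LinearOrderedCommGroupWithZero Γ]

theorem TotRam.val_sub_le_of_unif {v : Valuation F Γ} {p : ℕ} (hT : TotRam F0 v p)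
    (E : IntermediateField F0 F) (π₁ : F) (hπ : π₁ ∈ E) (hπ0 : π₁ ≠ 0) (hπ1 : v π₁ < 1)
    (hdisc : ∀ x ∈ E, x ≠ 0 → ∃ k : ℤ, v x = v π₁ ^ k)
    (τ : F ≃ₐ[F0] F) (N : ℕ) (c : F) (hc : c ∈ E) (hc1 : v c ≤ 1) :
    v (τ c - c) ≤ max (v (τ π₁ - π₁)) (v π₁ ^ N) := by
  induction N generalizing c with
  | zero =>
    rw [pow_zero]
    refine le_max_of_le_right ?_
    calc v (τ c - c) ≤ max (v (τ c)) (v c) := Valuation.map_sub _ _ _
      _ ≤ 1 := max_le (by rw [hT.inv]; exact hc1) hc1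
  | succ N ih =>
    obtain ⟨b, hb⟩ := hT.res c hc1
    by_cases hcb : c - algebraMap F0 F b = 0
    · have h0 : c = algebraMap F0 F b := sub_eq_zero.1 hcb
      rw [h0, τ.commutes, sub_self, map_zero]
      exact zero_le
    · have hmem : c - algebraMap F0 F b ∈ E := sub_mem hc (E.algebraMap_mem b)
      obtain ⟨k, hk⟩ := hdisc _ hmem hcb
      have hv0 : v π₁ ≠ 0 := (Valuation.ne_zero_iff _).2 hπ0
      have hk1 : 1 ≤ k := by
        by_contra hlt
        obtain ⟨m, rfl⟩ : ∃ m : ℕ, k = -(m : ℤ) := ⟨(-k).toNat, by omega⟩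
        have h1 : 1 ≤ v π₁ ^ (-(m : ℤ)) := by
          rw [zpow_neg, zpow_natCast]
          exact (one_le_inv₀ (zero_lt_iff.2 (pow_ne_zero _ hv0))).2 (pow_le_one₀ zero_le hπ1.le)
        rw [hk] at hb
        exact absurd hb (not_lt.2 h1)
      obtain ⟨c', hc'⟩ : ∃ c', c' = (c - algebraMap F0 F b) / π₁ := ⟨_, rfl⟩
      have hc'E : c' ∈ E := by
        rw [hc']
        exact div_mem hmem hπ
      have hc'1 : v c' ≤ 1 := by
        obtain ⟨m, hm⟩ : ∃ m : ℕ, k = (m : ℤ) + 1 := ⟨(k - 1).toNat, by omega⟩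
        rw [hc', map_div₀, hk, hm, zpow_add_one₀ hv0, zpow_natCast, mul_div_cancel_right₀ _ hv0]
        exact pow_le_one₀ zero_le hπ1.le
      have hcc : c = algebraMap F0 F b + π₁ * c' := by
        rw [hc', mul_div_cancel₀ _ hπ0]
        ring
      have key : τ c - c = (τ π₁ - π₁) * τ c' + π₁ * (τ c' - c') := by
        rw [hcc, map_add, τ.commutes, map_mul]
        ring
      rw [key]
      refine (Valuation.map_add _ _ _).trans (max_le ?_ ?_)
      · rw [map_mul, hT.inv]
        exact le_max_of_le_left (mul_le_of_le_one_right' hc'1)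
      · rw [map_mul]
        rcases le_max_iff.1 (ih c' hc'E hc'1) with h2 | h2
        · exact le_max_of_le_left ((mul_le_of_le_one_left' hπ1.le).trans h2)
        · refine le_max_of_le_right ?_
          rw [pow_succ']
          exact mul_le_mul_right h2 _

end Fermat.Agent.S56.Flat.Ram
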