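/-
S56 / FLAT / LF (architect helper202), leaf LF-4c (Mathlib only): the Kummer generator of a bad element.
`hbin`, `hζ` are the outputs of leaf LF-4d (given here as hypotheses).  (task 3046, helper288)
-/
import Fermat.Agent.S56.Flat.LF.Defs

set_option autoImplicit false

namespace Fermat.Agent.S56.Flat.Ram

variable {F : Type*} [Field F] {Γ : Type*} [LinearOrderedCommGroupWithZero Γ]

private theorem lf_mul_eq {p e e' : ℕ} (hp : 0 < p) (he : e = (p - 1) * e') :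
    p * e' = e' + e := by
  obtain ⟨k, rfl⟩ : ∃ k, p = k + 1 := ⟨p - 1, by omega⟩
  rw [he, Nat.add_sub_cancel]
  ring

private theorem lf_pos (v : Valuation F Γ) {ϖ : F} (hϖ0 : ϖ ≠ 0) : 0 < v ϖ :=
  zero_lt_iff.2 ((Valuation.ne_zero_iff v).2 hϖ0)

theorem bad1_val (v : Valuation F Γ) {p : ℕ} (hp : p.Prime)
    (hbin : ∀ x y : F, v x ≤ 1 → v y ≤ 1 →
      ∃ r : F, v r ≤ 1 ∧ (x + y) ^ p = x ^ p + y ^ p + (p : F) * x * y * r)
    (e : ℕ) (ϖ : F) (hϖ : ϖ ^ e = (p : F)) (hϖ0 : ϖ ≠ 0) (hϖ1 : v ϖ < 1)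
    (a α : F) (hα : α ^ p = a) (j : ℕ) (hj0 : 0 < j) (hje : j < e) (hja : v (a - 1) = v ϖ ^ j) :
    v α = 1 ∧ v (α - 1) ^ p = v ϖ ^ j := by
  have hpos := lf_pos v hϖ0
  have h1 : v (a - 1) < 1 := by
    rw [hja]
    exact pow_lt_one₀ hpos.le hϖ1 hj0.ne'
  have ha : v a = 1 := by
    have h2 := Valuation.map_one_add_of_lt v h1
    rwa [add_sub_cancel] at h2
  have hvα : v α = 1 := by
    have h2 : v α ^ p = 1 := by rw [← map_pow, hα, ha]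
    exact (pow_eq_one_iff.1 h2).resolve_right hp.ne_zero
  refine ⟨hvα, ?_⟩
  have hβ : v (α - 1) ≤ 1 := by
    refine (Valuation.map_sub v α 1).trans ?_
    rw [hvα, map_one, max_self]
  obtain ⟨r, hr, hexp⟩ := hbin 1 (α - 1) (by rw [map_one]) hβ
  rw [add_sub_cancel, hα, one_pow] at hexp
  have h3 : (α - 1) ^ p = (a - 1) - (p : F) * 1 * (α - 1) * r := by rw [hexp]; ring
  have h4 : v ((p : F) * 1 * (α - 1) * r) < v (a - 1) := by
    rw [hja, map_mul, map_mul, map_mul, map_one, mul_one, ← hϖ, map_pow]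
    calc v ϖ ^ e * v (α - 1) * v r ≤ v ϖ ^ e * 1 * 1 := by gcongr
      _ = v ϖ ^ e := by rw [mul_one, mul_one]
      _ < v ϖ ^ j := pow_lt_pow_right_of_lt_one₀ hpos hϖ1 hje
  rw [← map_pow, h3, Valuation.map_sub_eq_of_lt_left v h4, hja]

theorem bad1_delta (v : Valuation F Γ) {p : ℕ} (hp : p.Prime) (e e' : ℕ) (he : e = (p - 1) * e')
    (ϖ : F) (hϖ0 : ϖ ≠ 0) (hϖ1 : v ϖ < 1)
    (hζ : ∀ ζ : F, ζ ^ p = 1 → v (ζ - 1) ≤ v ϖ ^ e')
    (a α : F) (hα : α ^ p = a) (j : ℕ) (hje : j < e) (hα1 : v α = 1)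
    (hβ : v (α - 1) ^ p = v ϖ ^ j) (τ : F →+* F) (hτa : τ a = a) :
    ∃ δ : F, τ (α - 1) = (α - 1) * (1 + δ) ∧ v δ ^ p ≤ v ϖ ^ (e' + 1) := by
  have hpos := lf_pos v hϖ0
  have hα0 : α ≠ 0 := by
    rintro rfl
    rw [map_zero] at hα1
    exact zero_ne_one hα1
  have hβ0 : α - 1 ≠ 0 := by
    intro h
    rw [h, map_zero, zero_pow hp.ne_zero] at hβ
    exact (pow_pos hpos j).ne hβ
  have ha0 : a ≠ 0 := by rw [← hα]; exact pow_ne_zero _ hα0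
  have hζp : (τ α / α) ^ p = 1 := by
    rw [div_pow, ← map_pow, hα, hτa, div_self ha0]
  refine ⟨(τ α / α - 1) * α / (α - 1), ?_, ?_⟩
  · rw [map_sub, map_one]
    field_simp
    ring
  · have h1 : v ((τ α / α - 1) * α / (α - 1)) * v (α - 1) = v (τ α / α - 1) := by
      rw [← map_mul, div_mul_cancel₀ _ hβ0, map_mul, hα1, mul_one]
    have h2 : v ((τ α / α - 1) * α / (α - 1)) ^ p * v ϖ ^ j = v (τ α / α - 1) ^ p := by
      rw [← hβ, ← mul_pow, h1]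
    have h3 : v (τ α / α - 1) ^ p ≤ v ϖ ^ (e' + 1) * v ϖ ^ j := by
      calc v (τ α / α - 1) ^ p ≤ (v ϖ ^ e') ^ p := pow_le_pow_left₀ zero_le (hζ _ hζp) p
        _ = v ϖ ^ (p * e') := by rw [← pow_mul, mul_comm]
        _ ≤ v ϖ ^ (e' + 1 + j) := by
            refine pow_le_pow_of_le_one hpos.le hϖ1.le ?_
            rw [lf_mul_eq hp.pos he]
            omega
        _ = v ϖ ^ (e' + 1) * v ϖ ^ j := pow_add _ _ _
    rw [← h2] at h3
    exact le_of_mul_le_mul_right h3 (pow_pos hpos j)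

theorem bad2_delta (v : Valuation F Γ) {p : ℕ} (hp : p.Prime) (e e' : ℕ) (he : e = (p - 1) * e')
    (he0 : e ≠ 0) (ϖ : F) (hϖ1 : v ϖ < 1)
    (hζ : ∀ ζ : F, ζ ^ p = 1 → v (ζ - 1) ≤ v ϖ ^ e')
    (a α : F) (hα : α ^ p = a) (ha0 : a ≠ 0) (τ : F →+* F) (hτa : τ a = a) :
    ∃ δ : F, τ α = α * (1 + δ) ∧ v δ ^ p ≤ v ϖ ^ (e' + 1) := by
  have hα0 : α ≠ 0 := by
    rintro rfl
    rw [zero_pow hp.ne_zero] at hα
    exact ha0 hα.symm
  have hζp : (τ α / α) ^ p = 1 := by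
    rw [div_pow, ← map_pow, hα, hτa, div_self ha0]
  refine ⟨τ α / α - 1, ?_, ?_⟩
  · field_simp
    ring
  · calc v (τ α / α - 1) ^ p ≤ (v ϖ ^ e') ^ p := pow_le_pow_left₀ zero_le (hζ _ hζp) p
      _ = v ϖ ^ (p * e') := by rw [← pow_mul, mul_comm]
      _ ≤ v ϖ ^ (e' + 1) := by
          refine pow_le_pow_of_le_one zero_le hϖ1.le ?_
          rw [lf_mul_eq hp.pos he]
          omega

end Fermat.Agent.S56.Flat.Ram
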