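/-
S56 / FLAT / LF (architect helper202), leaf LF-4b (Mathlib only; proof helper298): the explicit
uniformiser `π₁ = β ^ x * ϖ ^ y`, `x j + y p = 1`.
-/
import Fermat.Agent.S56.Flat.LF.Defs

set_option autoImplicit false

namespace Fermat.Agent.S56.Flat.Ram

variable {F : Type*} [Field F] {Γ : Type*} [LinearOrderedCommGroupWithZero Γ]

/-- Bezout with a nonnegative first coefficient. -/
private theorem lf_bezout {p : ℕ} (hp : p.Prime) (j : ℤ) (hj : ¬ (p : ℤ) ∣ j) :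
    ∃ (x : ℕ) (y : ℤ), j * x + y * p = 1 := by
  have hcop : IsCoprime (p : ℤ) j :=
    ((Nat.prime_iff_prime_int.mp hp).coprime_iff_not_dvd).2 hj
  obtain ⟨a, b, hab⟩ := hcop
  -- `a p + b j = 1`
  have hp0 : (0 : ℤ) < p := by exact_mod_cast hp.pos
  obtain ⟨x, hx⟩ : ∃ x : ℕ, (x : ℤ) = b % p :=
    ⟨(b % p).toNat, Int.toNat_of_nonneg (Int.emod_nonneg _ hp0.ne')⟩
  refine ⟨x, a + j * (b / p), ?_⟩
  rw [hx]
  have h1 : b % p = b - p * (b / p) := by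
    have := Int.emod_add_mul_ediv b p
    linarith
  rw [h1]
  linear_combination hab

theorem exists_val_pow_eq (v : Valuation F Γ) {p : ℕ} (hp : p.Prime) (ϖ β : F) (hϖ0 : ϖ ≠ 0)
    (j : ℤ) (hj : ¬ (p : ℤ) ∣ j) (hβ : v β ^ p = v ϖ ^ j) :
    ∃ (x : ℕ) (y : ℤ), v (β ^ x * ϖ ^ y) ^ p = v ϖ := by
  obtain ⟨x, y, hxy⟩ := lf_bezout hp j hj
  refine ⟨x, y, ?_⟩
  have hv : v ϖ ≠ 0 := (map_ne_zero v).2 hϖ0
  rw [map_mul, map_pow, map_zpow₀, mul_pow, ← pow_mul, mul_comm x p, pow_mul, hβ,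
    ← zpow_natCast (v ϖ ^ j) x, ← zpow_natCast (v ϖ ^ y) p, ← zpow_mul, ← zpow_mul,
    ← zpow_add₀ hv, hxy, zpow_one]

theorem val_sub_le_of_ratio (v : Valuation F Γ) (τ : F →+* F) (ϖ β δ : F) (hτϖ : τ ϖ = ϖ)
    (hτβ : τ β = β * (1 + δ)) (hδ : v δ ≤ 1) (x : ℕ) (y : ℤ) :
    v (τ (β ^ x * ϖ ^ y) - β ^ x * ϖ ^ y) ≤ v (β ^ x * ϖ ^ y) * v δ := by
  have h1 : τ (β ^ x * ϖ ^ y) - β ^ x * ϖ ^ y =
      β ^ x * ϖ ^ y * ((∑ i ∈ Finset.range x, (1 + δ) ^ i) * δ) := by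
    have h2 : (∑ i ∈ Finset.range x, (1 + δ) ^ i) * δ = (1 + δ) ^ x - 1 := by
      have := geom_sum_mul (1 + δ) x
      rwa [add_sub_cancel_left] at this
    rw [h2, map_mul, map_pow, map_zpow₀, hτϖ, hτβ, mul_pow]
    ring
  rw [h1, map_mul, map_mul v _ δ]
  have h3 : v (1 + δ) ≤ 1 := by
    refine (v.map_add _ _).trans (max_le ?_ hδ)
    rw [map_one]
  have h4 : v (∑ i ∈ Finset.range x, (1 + δ) ^ i) ≤ 1 := by
    refine v.map_sum_le fun i _ => ?_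
    rw [map_pow]
    exact pow_le_one₀ zero_le h3
  exact mul_le_mul_right (mul_le_of_le_one_left' h4) _

end Fermat.Agent.S56.Flat.Ram
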