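/-
S56 / FLAT / LF (architect helper202; this file: helper127), leaf LF-R (Mathlib only): degrees of
radical extensions.
-/
import Mathlib

set_option autoImplicit false

namespace Fermat.Agent.S56.Flat.Ram

open IntermediateField

variable {F0 F : Type*} [Field F0] [Field F] [Algebra F0 F]

theorem finrank_adjoin_root_le (ϖ : F) (e : ℕ) (he : e ≠ 0) (x : F0)
    (hϖ : ϖ ^ e = algebraMap F0 F x) : Module.finrank F0 F0⟮ϖ⟯ ≤ e := by
  have hmonic : (Polynomial.X ^ e - Polynomial.C x : Polynomial F0).Monic :=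
    Polynomial.monic_X_pow_sub_C x he
  have hroot : Polynomial.aeval ϖ (Polynomial.X ^ e - Polynomial.C x : Polynomial F0) = 0 := by
    rw [map_sub, map_pow, Polynomial.aeval_X, Polynomial.aeval_C, hϖ, sub_self]
  have hint : IsIntegral F0 ϖ := ⟨_, hmonic, hroot⟩
  rw [IntermediateField.adjoin.finrank hint]
  calc (minpoly F0 ϖ).natDegree
      ≤ (Polynomial.X ^ e - Polynomial.C x : Polynomial F0).natDegree :=
        Polynomial.natDegree_le_of_dvd (minpoly.dvd F0 ϖ hroot) hmonic.ne_zero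
    _ = e := Polynomial.natDegree_X_pow_sub_C

theorem finrank_adjoin_pair_le (ϖ α : F) (e p : ℕ) (he : e ≠ 0) (hp : p ≠ 0) (x : F0)
    (hϖ : ϖ ^ e = algebraMap F0 F x) (hα : α ^ p ∈ F0⟮ϖ⟯) :
    Module.finrank F0 (IntermediateField.adjoin F0 {ϖ, α}) ≤ p * e := by
  have h1 : Module.finrank F0 F0⟮ϖ⟯ ≤ e := finrank_adjoin_root_le ϖ e he x hϖ
  have h2 : Module.finrank F0⟮ϖ⟯ (F0⟮ϖ⟯)⟮α⟯ ≤ p :=
    finrank_adjoin_root_le (F0 := F0⟮ϖ⟯) α p hp ⟨α ^ p, hα⟩ rfl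
  have h3 : Module.finrank F0 (IntermediateField.adjoin F0 {ϖ, α}) =
      Module.finrank F0 ((F0⟮ϖ⟯)⟮α⟯) := by
    rw [← IntermediateField.adjoin_simple_adjoin_simple F0 ϖ α]
    rfl
  rw [h3, ← Module.finrank_mul_finrank F0 F0⟮ϖ⟯ ((F0⟮ϖ⟯)⟮α⟯), mul_comm]
  exact Nat.mul_le_mul h2 h1

end Fermat.Agent.S56.Flat.Ram
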