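/-
S56 / FLAT / LF (architect helper202), leaf LF-G (Mathlib only): Galois plumbing.  (helper111)
-/
import Mathlib

set_option autoImplicit false

namespace Fermat.Agent.S56.Flat.Ram

open IntermediateField

variable {F0 F : Type*} [Field F0] [Field F] [Algebra F0 F]

theorem card_fixingSubgroup_mul [FiniteDimensional F0 F] [IsGalois F0 F]
    (E : IntermediateField F0 F) :
    Nat.card E.fixingSubgroup * Module.finrank F0 E = Module.finrank F0 F := by
  rw [IsGalois.card_fixingSubgroup_eq_finrank, mul_comm]
  exact Module.finrank_mul_finrank F0 E F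

theorem card_aut_eq [FiniteDimensional F0 F] [IsGalois F0 F] :
    Nat.card (F ≃ₐ[F0] F) = Module.finrank F0 F :=
  IsGalois.card_aut_eq_finrank F0 F

theorem mem_of_fixingSubgroup_smul [FiniteDimensional F0 F] [IsGalois F0 F]
    (E : IntermediateField F0 F) (c : F) (h : ∀ s ∈ E.fixingSubgroup, s • c = c) : c ∈ E := by
  rw [← IsGalois.fixedField_fixingSubgroup E, IntermediateField.mem_fixedField_iff]
  exact h

theorem apply_eq_of_mem_fixingSubgroup (E : IntermediateField F0 F) (s : F ≃ₐ[F0] F)
    (hs : s ∈ E.fixingSubgroup) (x : F) (hx : x ∈ E) : s x = x :=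
  (IntermediateField.mem_fixingSubgroup_iff E s).mp hs x hx

theorem fixingSubgroup_le_of_le {E E₁ : IntermediateField F0 F} (h : E ≤ E₁) :
    E₁.fixingSubgroup ≤ E.fixingSubgroup := by
  intro s hs
  rw [IntermediateField.mem_fixingSubgroup_iff] at hs ⊢
  exact fun x hx => hs x (h hx)

end Fermat.Agent.S56.Flat.Ram
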