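/-
S56 / FLAT / LF (architect helper202, proofs helper80), leaves LF-5b, LF-5c (Mathlib + Ram/Defs only): the two steps of the
normal form of `E^× / p`-th powers.  `E` is any intermediate field containing `ϖ`.

`unit_step`: `hT.res a` gives `b₀ : F0`, `v (a - b₀) < 1`, so `v b₀ = 1`; `hT.root b₀` gives `w : F0`, `v (w ^ p - b₀) < 1`,
so `v w = 1`, `w ≠ 0`.  `b := (algebraMap F0 F w)⁻¹ ∈ E` (`E.algebraMap_mem`, `E.inv_mem`);
`a * b ^ p - 1 = ((a - b₀) - (w ^ p - b₀)) * b ^ p`.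
`raise_step`: `j = p * i`, `i ≥ 1`.  `u := (a - 1) / ϖ ^ j`, `v u = 1`; `hT.res u`: `u₀ : F0`, `v (u - u₀) < 1`, `v u₀ = 1`;
`hT.root (-u₀)`: `s : F0`, `v (s ^ p + u₀) < 1`, `v s = 1`.  `b := 1 + s * ϖ ^ i ∈ E`, `b ≠ 0` as `v (s ϖ ^ i) < 1`.
`hbin 1 (s ϖ^i)`: `b ^ p = 1 + s ^ p ϖ ^ j + p * 1 * (s ϖ ^ i) * r`.  Then
`a b ^ p - 1 = (u + s ^ p) ϖ ^ j + u s ^ p ϖ ^ j ϖ ^ j + a * (p s ϖ ^ i r)`; each of the three terms has `v < v ϖ ^ j`
(`v (u + s ^ p) < 1`; `v ϖ ^ j < 1`; `v p = v ϖ ^ e < v ϖ ^ j`, `v a ≤ 1`).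
-/
import Fermat.Agent.S56.Flat.LF.Defs

set_option autoImplicit false

namespace Fermat.Agent.S56.Flat.Ram

variable {F0 F : Type*} [Field F0] [Field F] [Algebra F0 F]
variable {Γ : Type*} [LinearOrderedCommGroupWithZero Γ]

private theorem lf_val_eq_one_of_sub_lt {v : Valuation F Γ} {x y : F} (hx : v x = 1)
    (h : v (x - y) < 1) : v y = 1 := by
  rw [← hx]
  apply Valuation.map_eq_of_sub_lt
  rw [Valuation.map_sub_swap, hx]
  exact h

private theorem lf_le_one_of_pow_eq_one {g : Γ} {n : ℕ} (hn : n ≠ 0) (h : g ^ n = 1) : g ≤ 1 := by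
  by_contra hcon
  exact absurd h (one_lt_pow₀ (not_le.1 hcon) hn).ne'

theorem TotRam.unit_step {v : Valuation F Γ} {p : ℕ} (hT : TotRam F0 v p)
    (E : IntermediateField F0 F) (a : F) (ha1 : v a = 1) :
    ∃ b ∈ E, b ≠ 0 ∧ v (a * b ^ p - 1) < 1 := by
  obtain ⟨b₀, h1⟩ := hT.res a ha1.le
  have hb₀ : v (algebraMap F0 F b₀) = 1 := lf_val_eq_one_of_sub_lt ha1 h1
  obtain ⟨w, h2⟩ := hT.root b₀ hb₀
  rw [map_sub, map_pow] at h2
  have hW : v (algebraMap F0 F w ^ p) = 1 :=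
    lf_val_eq_one_of_sub_lt hb₀ (by rw [Valuation.map_sub_swap]; exact h2)
  have hWp0 : algebraMap F0 F w ^ p ≠ 0 := by
    intro h
    rw [h, map_zero] at hW
    exact zero_ne_one hW
  have hW0 : algebraMap F0 F w ≠ 0 := by
    intro h
    apply hWp0
    rw [h, zero_pow]
    rintro rfl
    exact hT.p_ne Nat.cast_zero
  refine ⟨(algebraMap F0 F w)⁻¹, E.inv_mem (E.algebraMap_mem w), inv_ne_zero hW0, ?_⟩
  have h3 : a * (algebraMap F0 F w)⁻¹ ^ p - 1 =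
      ((a - algebraMap F0 F b₀) - (algebraMap F0 F w ^ p - algebraMap F0 F b₀)) *
        (algebraMap F0 F w ^ p)⁻¹ := by
    rw [inv_pow]
    field_simp
    ring
  rw [h3, map_mul, map_inv₀, hW, inv_one, mul_one]
  exact Valuation.map_sub_lt _ h1 h2

theorem TotRam.raise_step {v : Valuation F Γ} {p : ℕ} (hp : p.Prime) (hT : TotRam F0 v p)
    (hbin : ∀ x y : F, v x ≤ 1 → v y ≤ 1 →
      ∃ r : F, v r ≤ 1 ∧ (x + y) ^ p = x ^ p + y ^ p + (p : F) * x * y * r)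
    (E : IntermediateField F0 F) (e : ℕ) (ϖ : F) (hϖE : ϖ ∈ E) (hϖ : ϖ ^ e = (p : F))
    (a : F) (j : ℕ) (hj0 : 0 < j) (hje : j < e) (hpj : p ∣ j) (hja : v (a - 1) = v ϖ ^ j) :
    ∃ b ∈ E, b ≠ 0 ∧ v (a * b ^ p - 1) < v ϖ ^ j := by
  obtain ⟨i, rfl⟩ := hpj
  have hi0 : i ≠ 0 := by
    rintro rfl
    simp at hj0
  -- the uniformiser
  have hϖ0 : ϖ ≠ 0 := by
    rintro rfl
    apply hT.p_ne
    rw [← hϖ, zero_pow (by omega)]
  have hvp : v ϖ ^ e = v (p : F) := by rw [← map_pow, hϖ]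
  have hv0 : 0 < v ϖ := zero_lt_iff.2 ((Valuation.ne_zero_iff v).2 hϖ0)
  have hv1 : v ϖ < 1 := by
    by_contra hcon
    have h1 : 1 ≤ v ϖ ^ e := one_le_pow₀ (not_lt.1 hcon)
    rw [hvp] at h1
    exact absurd hT.p_lt (not_lt.2 h1)
  set g : Γ := v ϖ ^ (p * i) with hg
  have hg0 : 0 < g := pow_pos hv0 _
  have hg1 : g < 1 := pow_lt_one₀ hv0.le hv1 hj0.ne'
  have hϖj0 : ϖ ^ (p * i) ≠ 0 := pow_ne_zero _ hϖ0
  -- the leading coefficient
  set u : F := (a - 1) / ϖ ^ (p * i) with hu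
  have hau : a = 1 + u * ϖ ^ (p * i) := by
    rw [hu, div_mul_cancel₀ _ hϖj0]
    ring
  have hvu : v u = 1 := by
    rw [hu, map_div₀, hja, map_pow]
    exact div_self hg0.ne'
  have hva : v a ≤ 1 := by
    have h1 : a = 1 + (a - 1) := by ring
    rw [h1]
    exact Valuation.map_add_le _ (le_of_eq (map_one v)) (by rw [hja]; exact hg1.le)
  obtain ⟨u₀, h1⟩ := hT.res u hvu.le
  have hu₀ : v (algebraMap F0 F u₀) = 1 := lf_val_eq_one_of_sub_lt hvu h1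
  obtain ⟨s, h2⟩ := hT.root (-u₀) (by rw [map_neg, Valuation.map_neg]; exact hu₀)
  rw [sub_neg_eq_add, map_add, map_pow] at h2
  set S : F := algebraMap F0 F s with hS
  have hSp : v (S ^ p) = 1 := by
    have h3 : v (-algebraMap F0 F u₀) = 1 := by rw [Valuation.map_neg]; exact hu₀
    refine lf_val_eq_one_of_sub_lt h3 ?_
    rw [Valuation.map_sub_swap, sub_neg_eq_add]
    exact h2
  have hvS : v S ≤ 1 := lf_le_one_of_pow_eq_one hp.ne_zero (by rw [← map_pow]; exact hSp)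
  have huS : v (u + S ^ p) < 1 := by
    have h3 : u + S ^ p = (u - algebraMap F0 F u₀) + (S ^ p + algebraMap F0 F u₀) := by ring
    rw [h3]
    exact Valuation.map_add_lt _ h1 h2
  -- the element `b`
  set y : F := S * ϖ ^ i with hy
  have hvy : v y < 1 := by
    rw [hy, map_mul, map_pow]
    exact lt_of_le_of_lt (mul_le_of_le_one_left' hvS) (pow_lt_one₀ hv0.le hv1 hi0)
  have hyp : y ^ p = S ^ p * ϖ ^ (p * i) := by
    rw [hy, mul_pow, ← pow_mul, mul_comm i p]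
  obtain ⟨r, hr, hb⟩ := hbin 1 y (le_of_eq (map_one v)) hvy.le
  refine ⟨1 + y, E.add_mem E.one_mem (E.mul_mem (E.algebraMap_mem s) (pow_mem hϖE i)), ?_, ?_⟩
  · intro h
    have h3 := Valuation.map_one_add_of_lt v hvy
    rw [h, map_zero] at h3
    exact zero_ne_one h3
  · have h3 : a * (1 + y) ^ p - 1 = (u + S ^ p) * ϖ ^ (p * i) +
        u * S ^ p * ϖ ^ (p * i) * ϖ ^ (p * i) + a * ((p : F) * y * r) := by
      rw [hb, hyp]
      conv_lhs => rw [hau]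
      conv_rhs => rw [hau]
      ring
    rw [h3]
    refine Valuation.map_add_lt _ (Valuation.map_add_lt _ ?_ ?_) ?_
    · rw [map_mul, map_pow, ← hg]
      exact mul_lt_of_lt_one_left hg0 huS
    · rw [map_mul, map_mul, map_mul, map_pow v ϖ, ← hg, hvu, hSp, one_mul, one_mul]
      exact mul_lt_of_lt_one_left hg0 hg1
    · have h4 : v (a * ((p : F) * y * r)) ≤ v (p : F) := by
        rw [map_mul, map_mul, map_mul]
        calc v a * (v (p : F) * v y * v r) ≤ 1 * (v (p : F) * 1 * 1) :=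
              mul_le_mul' hva (mul_le_mul' (mul_le_mul' le_rfl hvy.le) hr)
          _ = v (p : F) := by rw [one_mul, mul_one, mul_one]
      refine lt_of_le_of_lt h4 ?_
      rw [← hvp, hg]
      exact pow_lt_pow_right_of_lt_one₀ hv0 hv1 hje

end Fermat.Agent.S56.Flat.Ram
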