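/-
S56 / FLAT / LF (architect helper202), leaf LF-5d (Mathlib + Ram/Defs only): the induction of the normal form.
`hraise` is the output of LF-5c, `hdisc` the discreteness of `v` on `E` (uniformiser `ϖ`).  Owner: helper168.
-/
import Fermat.Agent.S56.Flat.LF.Defs

set_option autoImplicit false

namespace Fermat.Agent.S56.Flat.Ram

variable {F0 F : Type*} [Field F0] [Field F] [Algebra F0 F]
variable {Γ : Type*} [LinearOrderedCommGroupWithZero Γ]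

/-- the induction on the level. -/
theorem lf_normal_form_aux (v : Valuation F Γ) (p : ℕ) (E : IntermediateField F0 F) (e : ℕ)
    (ϖ : F) (hϖ0 : ϖ ≠ 0) (hϖ1 : v ϖ < 1) (hϖ : ϖ ^ e = (p : F))
    (hdisc : ∀ x ∈ E, x ≠ 0 → ∃ k : ℤ, v x = v ϖ ^ k)
    (hraise : ∀ (a : F) (j : ℕ), a ∈ E → 0 < j → j < e → p ∣ j → v (a - 1) = v ϖ ^ j →
      ∃ b ∈ E, b ≠ 0 ∧ v (a * b ^ p - 1) < v ϖ ^ j) (n : ℕ) :
    ∀ a : F, a ∈ E → v (a - 1) < 1 → v (a - 1) ≤ v ϖ ^ (e - n) →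
    ∃ b ∈ E, b ≠ 0 ∧ (v (a * b ^ p - 1) ≤ v (p : F) ∨ Bad1 v ϖ (a * b ^ p) e p) := by
  have hx0 : 0 < v ϖ := zero_lt_iff.mpr ((Valuation.ne_zero_iff v).mpr hϖ0)
  have hvp : v (p : F) = v ϖ ^ e := by rw [← hϖ, map_pow]
  induction n with
  | zero =>
    intro a _ _ hle
    refine ⟨1, E.one_mem, one_ne_zero, Or.inl ?_⟩
    rw [one_pow, mul_one, hvp]
    exact hle
  | succ n ih =>
    intro a ha ha1 hle
    by_cases hsmall : v (a - 1) ≤ v ϖ ^ e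
    · refine ⟨1, E.one_mem, one_ne_zero, Or.inl ?_⟩
      rw [one_pow, mul_one, hvp]
      exact hsmall
    · have hsmall' : v ϖ ^ e < v (a - 1) := not_le.mp hsmall
      have hne : a - 1 ≠ 0 := by
        intro h0
        rw [h0, map_zero] at hsmall'
        exact not_lt_zero hsmall'
      obtain ⟨k, hk⟩ := hdisc (a - 1) (E.sub_mem ha E.one_mem) hne
      have hk0 : 0 < k := by
        have : v ϖ ^ k < v ϖ ^ (0 : ℤ) := by rw [zpow_zero, ← hk]; exact ha1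
        exact (zpow_lt_zpow_iff_right_of_lt_one₀ hx0 hϖ1).mp this
      have hke : k < e := by
        have : v ϖ ^ (e : ℤ) < v ϖ ^ k := by rw [zpow_natCast, ← hk]; exact hsmall'
        exact (zpow_lt_zpow_iff_right_of_lt_one₀ hx0 hϖ1).mp this
      have hkn : ((e - (n + 1) : ℕ) : ℤ) ≤ k := by
        have : v ϖ ^ k ≤ v ϖ ^ ((e - (n + 1) : ℕ) : ℤ) := by rw [zpow_natCast, ← hk]; exact hle
        exact (zpow_le_zpow_iff_right_of_lt_one₀ hx0 hϖ1).mp this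
      obtain ⟨j, rfl⟩ : ∃ j : ℕ, k = (j : ℤ) := ⟨k.toNat, (Int.toNat_of_nonneg hk0.le).symm⟩
      rw [zpow_natCast] at hk
      have hj0 : 0 < j := by exact_mod_cast hk0
      have hje : j < e := by exact_mod_cast hke
      have hjn : e - (n + 1) ≤ j := by exact_mod_cast hkn
      by_cases hpj : p ∣ j
      · obtain ⟨b₁, hb₁E, hb₁0, hb₁⟩ := hraise a j ha hj0 hje hpj hk
        have ha₁E : a * b₁ ^ p ∈ E := E.mul_mem ha (pow_mem hb₁E p)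
        have hlt1 : v (a * b₁ ^ p - 1) < 1 :=
          lt_of_lt_of_le hb₁ (pow_le_one₀ hx0.le hϖ1.le)
        have hle' : v (a * b₁ ^ p - 1) ≤ v ϖ ^ (e - n) := by
          by_cases h0 : a * b₁ ^ p - 1 = 0
          · rw [h0, map_zero]
            exact zero_le
          · obtain ⟨k', hk'⟩ := hdisc _ (E.sub_mem ha₁E E.one_mem) h0
            have h1 : (j : ℤ) < k' := by
              have : v ϖ ^ k' < v ϖ ^ (j : ℤ) := by rw [zpow_natCast, ← hk']; exact hb₁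
              exact (zpow_lt_zpow_iff_right_of_lt_one₀ hx0 hϖ1).mp this
            have h2 : ((e - n : ℕ) : ℤ) ≤ k' := by omega
            rw [hk', ← zpow_natCast]
            exact (zpow_le_zpow_iff_right_of_lt_one₀ hx0 hϖ1).mpr h2
        obtain ⟨b₂, hb₂E, hb₂0, hb₂⟩ := ih _ ha₁E hlt1 hle'
        refine ⟨b₁ * b₂, E.mul_mem hb₁E hb₂E, mul_ne_zero hb₁0 hb₂0, ?_⟩
        rw [mul_pow, ← mul_assoc]
        exact hb₂
      · refine ⟨1, E.one_mem, one_ne_zero, Or.inr ⟨j, hj0, hje, hpj, ?_⟩⟩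
        rw [one_pow, mul_one]
        exact hk

theorem normal_form_of_lt_one (v : Valuation F Γ) (p : ℕ) (E : IntermediateField F0 F) (e : ℕ)
    (ϖ : F) (hϖ0 : ϖ ≠ 0) (hϖ1 : v ϖ < 1) (hϖ : ϖ ^ e = (p : F))
    (hdisc : ∀ x ∈ E, x ≠ 0 → ∃ k : ℤ, v x = v ϖ ^ k)
    (hraise : ∀ (a : F) (j : ℕ), a ∈ E → 0 < j → j < e → p ∣ j → v (a - 1) = v ϖ ^ j →
      ∃ b ∈ E, b ≠ 0 ∧ v (a * b ^ p - 1) < v ϖ ^ j)
    (a : F) (ha : a ∈ E) (ha1 : v (a - 1) < 1) :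
    ∃ b ∈ E, b ≠ 0 ∧ (v (a * b ^ p - 1) ≤ v (p : F) ∨ Bad1 v ϖ (a * b ^ p) e p) := by
  refine lf_normal_form_aux v p E e ϖ hϖ0 hϖ1 hϖ hdisc hraise e a ha ha1 ?_
  rw [Nat.sub_self, pow_zero]
  exact ha1.le

theorem normal_form (v : Valuation F Γ) (p : ℕ) (E : IntermediateField F0 F) (e : ℕ)
    (ϖ : F) (hϖE : ϖ ∈ E) (hϖ0 : ϖ ≠ 0) (hϖ1 : v ϖ < 1) (hϖ : ϖ ^ e = (p : F))
    (hdisc : ∀ x ∈ E, x ≠ 0 → ∃ k : ℤ, v x = v ϖ ^ k)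
    (hunit : ∀ a : F, a ∈ E → v a = 1 → ∃ b ∈ E, b ≠ 0 ∧ v (a * b ^ p - 1) < 1)
    (hlt : ∀ a : F, a ∈ E → v (a - 1) < 1 →
      ∃ b ∈ E, b ≠ 0 ∧ (v (a * b ^ p - 1) ≤ v (p : F) ∨ Bad1 v ϖ (a * b ^ p) e p))
    (a : F) (ha : a ∈ E) (ha0 : a ≠ 0) :
    ∃ b ∈ E, b ≠ 0 ∧ (v (a * b ^ p - 1) ≤ v (p : F) ∨ Bad1 v ϖ (a * b ^ p) e p ∨
      Bad2 v ϖ (a * b ^ p) p) := by
  have hx0 : v ϖ ≠ 0 := (Valuation.ne_zero_iff v).mpr hϖ0
  obtain ⟨k, hk⟩ := hdisc a ha ha0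
  by_cases hpk : (p : ℤ) ∣ k
  · obtain ⟨l, rfl⟩ := hpk
    have hb₀E : ϖ ^ (-l) ∈ E := zpow_mem hϖE (-l)
    have hb₀0 : ϖ ^ (-l) ≠ 0 := zpow_ne_zero _ hϖ0
    have ha₀E : a * (ϖ ^ (-l)) ^ p ∈ E := E.mul_mem ha (pow_mem hb₀E p)
    have hv1 : v (a * (ϖ ^ (-l)) ^ p) = 1 := by
      rw [map_mul, map_pow, map_zpow₀, hk, ← zpow_natCast, ← zpow_mul, ← zpow_add₀ hx0]
      have : (p : ℤ) * l + -l * (p : ℤ) = 0 := by ring
      rw [this, zpow_zero]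
    obtain ⟨b₁, hb₁E, hb₁0, hb₁⟩ := hunit _ ha₀E hv1
    have ha₁E : a * (ϖ ^ (-l)) ^ p * b₁ ^ p ∈ E := E.mul_mem ha₀E (pow_mem hb₁E p)
    obtain ⟨b₂, hb₂E, hb₂0, hb₂⟩ := hlt _ ha₁E hb₁
    refine ⟨ϖ ^ (-l) * b₁ * b₂, E.mul_mem (E.mul_mem hb₀E hb₁E) hb₂E,
      mul_ne_zero (mul_ne_zero hb₀0 hb₁0) hb₂0, ?_⟩
    rw [mul_pow, mul_pow, ← mul_assoc, ← mul_assoc]
    rcases hb₂ with h | h
    · exact Or.inl h
    · exact Or.inr (Or.inl h)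
  · refine ⟨1, E.one_mem, one_ne_zero, Or.inr (Or.inr ⟨k, hpk, ?_⟩)⟩
    rw [one_pow, mul_one]
    exact hk

end Fermat.Agent.S56.Flat.Ram
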