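/-
S56 / FLAT / LF (architect helper202), leaf LF-U (Mathlib + Ram/Defs only): criterion for uniformisers.
(task S56-LF-U, helper270)

Proof.  `hT.unif E` gives `π ∈ E`, `v π ^ r = v p` (`r = finrank F0 E`) and `v x = v π ^ k` on `E \ 0`.
`v p ≠ 0` (`hT.p_ne`), `v p < 1` (`hT.p_lt`), so `r ≠ 0`, `d ≠ 0`, `0 < v π < 1`, `π₁ ≠ 0`.
Write `v π₁ = v π ^ k` (`k : ℤ`).  Then `v π ^ (k * d) = v p = v π ^ r`, so `k * d = r`,
with `0 < r ≤ d`: hence `k = 1`, `r = d`, `v π₁ = v π`.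
-/
import Fermat.Agent.S56.Flat.LF.Defs

set_option autoImplicit false

namespace Fermat.Agent.S56.Flat.Ram

variable {F0 F : Type*} [Field F0] [Field F] [Algebra F0 F]
variable {Γ : Type*} [LinearOrderedCommGroupWithZero Γ]

theorem TotRam.unif_of_pow {v : Valuation F Γ} {p : ℕ} (hT : TotRam F0 v p)
    (E : IntermediateField F0 F) (π₁ : F) (hπ : π₁ ∈ E) (d : ℕ) (hd : v π₁ ^ d = v (p : F))
    (hle : Module.finrank F0 E ≤ d) :
    Module.finrank F0 E = d ∧ ∀ x ∈ E, x ≠ 0 → ∃ k : ℤ, v x = v π₁ ^ k := by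
  obtain ⟨π, -, hpow, hdisc⟩ := hT.unif E
  have hvp0 : v (p : F) ≠ 0 := (Valuation.ne_zero_iff v).2 hT.p_ne
  have hr0 : Module.finrank F0 E ≠ 0 := by
    intro h
    rw [h, pow_zero] at hpow
    exact hT.p_lt.ne hpow.symm
  have hπ0 : v π ≠ 0 := by
    intro h
    rw [h, zero_pow hr0] at hpow
    exact hvp0 hpow.symm
  have hπ1 : v π < 1 := by
    by_contra h
    push Not at h
    have h1 : 1 ≤ v π ^ Module.finrank F0 E := one_le_pow₀ h
    rw [hpow] at h1
    exact absurd hT.p_lt (not_lt.2 h1)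
  have hd0 : d ≠ 0 := by omega
  have hπ₁0 : π₁ ≠ 0 := by
    rintro rfl
    rw [map_zero, zero_pow hd0] at hd
    exact hvp0 hd.symm
  obtain ⟨k, hk⟩ := hdisc π₁ hπ hπ₁0
  have hinj : Function.Injective (fun n : ℤ => v π ^ n) :=
    zpow_right_injective₀ (zero_lt_iff.2 hπ0) hπ1.ne
  have hkd : k * (d : ℤ) = (Module.finrank F0 E : ℤ) := by
    apply hinj
    simp only
    rw [zpow_mul, ← hk, zpow_natCast, zpow_natCast, hd, hpow]
  have hk1 : k = 1 := by
    have hd' : (0 : ℤ) < d := by exact_mod_cast Nat.pos_of_ne_zero hd0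
    have hr' : (0 : ℤ) < (Module.finrank F0 E : ℤ) := by exact_mod_cast Nat.pos_of_ne_zero hr0
    have hle' : (Module.finrank F0 E : ℤ) ≤ d := by exact_mod_cast hle
    have hkpos : 0 < k := by
      by_contra h
      push Not at h
      nlinarith
    by_contra h
    have h2 : 2 ≤ k := by omega
    nlinarith
  subst hk1
  rw [zpow_one] at hk
  refine ⟨by rw [one_mul] at hkd; exact_mod_cast hkd.symm, ?_⟩
  intro x hx hx0
  rw [hk]
  exact hdisc x hx hx0

end Fermat.Agent.S56.Flat.Ram
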