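/-
S56 / FLAT / LF (architect helper202), leaf LF-4d (Mathlib only; task S56-LF-4d, helper233):
`v (ζ - 1) ^ (p - 1) ≤ v p` for `ζ ^ p = 1`; and the shape of `(x + y) ^ p` for integral `x, y`.
-/
import Fermat.Agent.S56.Flat.LF.Defs

set_option autoImplicit false

namespace Fermat.Agent.S56.Flat.Ram

variable {F : Type*} [Field F] {Γ : Type*} [LinearOrderedCommGroupWithZero Γ]

theorem exists_add_pow_eq (v : Valuation F Γ) {p : ℕ} (hp : p.Prime) (x y : F) (hx : v x ≤ 1)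
    (hy : v y ≤ 1) : ∃ r : F, v r ≤ 1 ∧ (x + y) ^ p = x ^ p + y ^ p + (p : F) * x * y * r := by
  obtain ⟨r, hr⟩ := exists_add_pow_prime_eq hp (⟨x, hx⟩ : v.integer) ⟨y, hy⟩
  refine ⟨r.1, r.2, ?_⟩
  have h := congrArg v.integer.subtype hr
  simpa using h

theorem val_root_sub_one_le (v : Valuation F Γ) {p : ℕ} (hp : p.Prime) (ζ : F) (hζ : ζ ^ p = 1) :
    v (ζ - 1) ^ (p - 1) ≤ v (p : F) := by
  have hp1 : p - 1 ≠ 0 := by have := hp.two_le; omega
  by_cases h1 : ζ = 1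
  · rw [h1, sub_self, map_zero, zero_pow hp1]
    exact zero_le
  · have hvζ : v ζ = 1 := by
      have h2 : v ζ ^ p = 1 := by rw [← map_pow, hζ, map_one]
      exact (pow_eq_one_iff.mp h2).resolve_right hp.ne_zero
    have hl0 : ζ - 1 ≠ 0 := sub_ne_zero.mpr h1
    have hl1 : v (ζ - 1) ≤ 1 := by
      refine (v.map_sub ζ 1).trans ?_
      rw [hvζ, map_one, max_self]
    obtain ⟨r, hr1, hr⟩ := exists_add_pow_eq v hp 1 (ζ - 1) (by rw [map_one]) hl1
    rw [add_sub_cancel, hζ, one_pow] at hr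
    have h3 : (ζ - 1) * (ζ - 1) ^ (p - 1) = (ζ - 1) * (-(p : F) * r) := by
      rw [← pow_succ', Nat.sub_add_cancel hp.one_le]
      linear_combination -hr
    have h4 := mul_left_cancel₀ hl0 h3
    rw [← map_pow, h4, map_mul, Valuation.map_neg]
    exact mul_le_of_le_one_right' hr1

/-- consequence: `v p = (v ϖ ^ e') ^ (p - 1)`, take `(p-1)`-th roots (`pow_le_pow_iff_left₀`). -/
theorem val_root_sub_one_le' (v : Valuation F Γ) {p : ℕ} (hp : p.Prime) (e e' : ℕ)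
    (he : e = (p - 1) * e') (ϖ : F) (hϖ : ϖ ^ e = (p : F)) (ζ : F) (hζ : ζ ^ p = 1) :
    v (ζ - 1) ≤ v ϖ ^ e' := by
  have hp1 : p - 1 ≠ 0 := by have := hp.two_le; omega
  have h := val_root_sub_one_le v hp ζ hζ
  rw [← hϖ, map_pow, he, mul_comm, pow_mul] at h
  exact (pow_le_pow_iff_left₀ zero_le zero_le hp1).mp h

end Fermat.Agent.S56.Flat.Ram
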